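/-
DS / chapter G-RED, brick IGU-D (hedge, helper11), part 1: **the ring of `K`-rational modular
functions of level `Γ(w)` with `O`-bounded expansions at all cusps**.

Level-free design.  For a field `K` with an embedding `ι : K →+* ℂ`, a valuation subring
`O ⊆ K` and `w ≥ 1`, `modRing ι O w` is the subring of `(ℍ → ℂ) × (SL(2,ℤ) → K((Q)))` of pairs
`(f, X)` with

* `f` holomorphic on `ℍ` and `Γ(w)`-invariant;
* for every `γ ∈ SL(2,ℤ)`: `X γ` is the `q_w`-expansion of `f ∘ γ` (after `ι`), and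
  `X γ ∈ Frac O((Q))` (bounded denominators).

`SL(2,ℤ)` acts by `δ • (f, X) = (f ∘ δ⁻¹, X (δ⁻¹ · ))`; `Γ(w)` acts trivially, so the finite group
`SL(2,ℤ) ⧸ Γ(w)` acts.  The expansion at infinity `expInf : (f, X) ↦ X 1` is an injective ring hom
into `K((Q))`; an element fixed by `SL(2,ℤ)` has `expInf` a polynomial in `j(Q^w)` over `K`
(level-one principle, `IntegralityLc.intg_core`).  Translation `z ↦ z + 1` acts on `expInf` by the
twist `Q ↦ ζ_w Q`.
-/
import Mathlib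
import Fermat.Agent.DS.G.X0.IntegralityLc
import Fermat.Agent.DS.G.X0.CuspEquiv
import Fermat.Agent.RED.PUR.GaussGen8
import Fermat.Agent.X0.JBasic

set_option autoImplicit false
set_option linter.unusedSectionVars false

open UpperHalfPlane ModularCurve
open scoped MatrixGroups

noncomputable section

namespace Fermat.Agent.DS.G.RED.Igusa.ModRing11

open Fermat.Agent.X0 Fermat.Agent.X0.Analytic Polynomial
open Fermat.Agent.DS.G.X0.Realize (toCι toCι_injective toCι_algebraMap toCι_coeff)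
open Fermat.Agent.DS.G.X0.IntegralityLc (jqc toCι_jqc intg_toC_jN intg_core)
open Fermat.Agent.RED.PUR.GaussGen8 (fracField gaussRing)
open CongruenceSubgroup

variable {K : Type} [Field K] [Algebra ℚ K] (ι : K →+* ℂ) (O : ValuationSubring K)
  (w : ℕ) [NeZero w]

/-- The ambient ring. -/
abbrev Amb (K : Type) [Field K] : Type := (ℍ → ℂ) × (SL(2, ℤ) → LaurentSeries K)

/-- The defining predicate of `modRing`. -/
def IsMod (a : Amb K) : Prop :=
  a.1 ∈ HolH ∧ (∀ δ ∈ Gamma w, compSL a.1 δ = a.1) ∧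
    ∀ γ : SL(2, ℤ), IntgQN w (compSL a.1 γ) (toCι ι (a.2 γ)) ∧ a.2 γ ∈ fracField O

/-- **The ring of `K`-rational level-`w` modular functions**, holomorphic on `ℍ`, with
`O`-bounded expansions at all cusps. -/
def modRing : Subring (Amb K) where
  carrier := {a | IsMod ι O w a}
  mul_mem' := by
    rintro a b ⟨ha1, ha2, ha3⟩ ⟨hb1, hb2, hb3⟩
    refine ⟨HolH.mul_mem ha1 hb1, fun δ hδ => ?_, fun γ => ⟨?_, ?_⟩⟩
    · show compSL (a.1 * b.1) δ = a.1 * b.1
      rw [compSL_mul_fun, ha2 δ hδ, hb2 δ hδ]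
    · show IntgQN w (compSL (a.1 * b.1) γ) (toCι ι (a.2 γ * b.2 γ))
      rw [compSL_mul_fun, map_mul]
      exact intg_qn_mul w (ha3 γ).1 (hb3 γ).1
    · exact mul_mem (ha3 γ).2 (hb3 γ).2
  one_mem' := by
    refine ⟨HolH.one_mem, fun δ _ => rfl, fun γ => ⟨?_, one_mem _⟩⟩
    show IntgQN w (1 : ℍ → ℂ) (toCι ι 1)
    have := intg_qn_const w 1
    rw [map_one] at this ⊢
    exact this
  add_mem' := by
    rintro a b ⟨ha1, ha2, ha3⟩ ⟨hb1, hb2, hb3⟩
    refine ⟨HolH.add_mem ha1 hb1, fun δ hδ => ?_, fun γ => ⟨?_, ?_⟩⟩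
    · show compSL (a.1 + b.1) δ = a.1 + b.1
      rw [compSL_add_fun, ha2 δ hδ, hb2 δ hδ]
    · show IntgQN w (compSL (a.1 + b.1) γ) (toCι ι (a.2 γ + b.2 γ))
      rw [compSL_add_fun, map_add]
      exact intg_qn_add w (ha3 γ).1 (hb3 γ).1
    · exact add_mem (ha3 γ).2 (hb3 γ).2
  zero_mem' := by
    refine ⟨HolH.zero_mem, fun δ _ => rfl, fun γ => ⟨?_, zero_mem _⟩⟩
    show IntgQN w (0 : ℍ → ℂ) (toCι ι 0)
    have := intg_qn_const w 0
    rw [map_zero] at this ⊢
    exact this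
  neg_mem' := by
    rintro a ⟨ha1, ha2, ha3⟩
    refine ⟨HolH.neg_mem ha1, fun δ hδ => ?_, fun γ => ⟨?_, ?_⟩⟩
    · show compSL (-a.1) δ = -a.1
      funext z
      show -(a.1 (δ • z)) = -(a.1 z)
      rw [show a.1 (δ • z) = compSL a.1 δ z from rfl, ha2 δ hδ]
    · show IntgQN w (compSL (-a.1) γ) (toCι ι (-(a.2 γ)))
      have := intg_qn_mul w (intg_qn_const w (-1)) (ha3 γ).1
      have hfun : (fun _ : ℍ => (-1 : ℂ)) * compSL a.1 γ = compSL (-a.1) γ := by
        funext z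
        show (-1 : ℂ) * a.1 (γ • z) = -(a.1 (γ • z))
        ring
      have e : HahnSeries.C (-1 : ℂ) * toCι ι (a.2 γ) = toCι ι (-(a.2 γ)) := by
        rw [map_neg, map_neg, map_one, neg_mul, one_mul]
      rw [hfun, e] at this
      exact this
    · exact neg_mem (ha3 γ).2

/-- The carrier type. -/
abbrev ModRing : Type := ↥(modRing ι O w)

variable {ι O w}

theorem mem_modRing {a : Amb K} : a ∈ modRing ι O w ↔ IsMod ι O w a := Iff.rfl

namespace ModRing

variable (a b : ModRing ι O w)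

theorem fst_mem_HolH : a.1.1 ∈ HolH := a.2.1

theorem fst_invariant {δ : SL(2, ℤ)} (hδ : δ ∈ Gamma w) : compSL a.1.1 δ = a.1.1 := a.2.2.1 δ hδ

theorem intgQN (γ : SL(2, ℤ)) : IntgQN w (compSL a.1.1 γ) (toCι ι (a.1.2 γ)) := (a.2.2.2 γ).1

theorem snd_mem_fracField (γ : SL(2, ℤ)) : a.1.2 γ ∈ fracField O := (a.2.2.2 γ).2

end ModRing

/-! ### Uniqueness: the function determines the expansions and conversely -/

section Uniq

/-- The first component determines the element. -/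
theorem ext_of_fst {a b : ModRing ι O w} (h : a.1.1 = b.1.1) : a = b := by
  apply Subtype.ext
  apply Prod.ext h
  funext γ
  apply toCι_injective ι ι.injective
  have h1 := a.intgQN γ
  have h2 := b.intgQN γ
  rw [h] at h1
  exact intg_qn_unique w h1 h2

/-- The expansion at infinity determines the function. -/
theorem fst_eq_of_snd_one_eq {a b : ModRing ι O w} (h : a.1.2 1 = b.1.2 1) : a.1.1 = b.1.1 := by
  have h1 := a.intgQN 1
  have h2 := b.intgQN 1
  rw [compSL_one] at h1 h2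
  rw [h] at h1
  exact intg_qn_unique_right w h1 h2

/-- The expansion at infinity determines the element. -/
theorem ext_of_snd_one {a b : ModRing ι O w} (h : a.1.2 1 = b.1.2 1) : a = b :=
  ext_of_fst (fst_eq_of_snd_one_eq h)

end Uniq

/-! ### The expansion at infinity -/

variable (ι O w) in
/-- **The `q_w`-expansion at infinity**, `(f, X) ↦ X 1`. -/
def expInf : ModRing ι O w →+* LaurentSeries K :=
  (Pi.evalRingHom (fun _ : SL(2, ℤ) => LaurentSeries K) 1).comp
    ((RingHom.snd (ℍ → ℂ) (SL(2, ℤ) → LaurentSeries K)).comp (modRing ι O w).subtype)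

@[simp] theorem expInf_apply (a : ModRing ι O w) : expInf ι O w a = a.1.2 1 := rfl

theorem expInf_injective : Function.Injective (expInf ι O w) :=
  fun _ _ h => ext_of_snd_one h

theorem expInf_mem_fracField (a : ModRing ι O w) : expInf ι O w a ∈ fracField O :=
  a.snd_mem_fracField 1

instance instIsDomainModRing : IsDomain (ModRing ι O w) :=
  (expInf_injective (ι := ι) (O := O) (w := w)).isDomain (expInf ι O w)

/-! ### The action of `SL(2,ℤ)` -/

/-- `δ • (f, X) = (f ∘ δ⁻¹, X (δ⁻¹ · ))` on the ambient ring. -/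
def smulAmb (δ : SL(2, ℤ)) (a : Amb K) : Amb K := (compSL a.1 δ⁻¹, fun γ => a.2 (δ⁻¹ * γ))

theorem isMod_smulAmb (δ : SL(2, ℤ)) {a : Amb K} (ha : IsMod ι O w a) :
    IsMod ι O w (smulAmb δ a) := by
  obtain ⟨ha1, ha2, ha3⟩ := ha
  refine ⟨compSL_mem_HolH ha1 δ⁻¹, fun ε hε => ?_, fun γ => ?_⟩
  · show compSL (compSL a.1 δ⁻¹) ε = compSL a.1 δ⁻¹
    have hconj : δ⁻¹ * ε * δ⁻¹⁻¹ ∈ Gamma w := (Gamma_normal w).conj_mem ε hε δ⁻¹
    have e : δ⁻¹ * ε = (δ⁻¹ * ε * δ⁻¹⁻¹) * δ⁻¹ := by group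
    rw [← compSL_mul, e, compSL_mul, ha2 _ hconj]
  · show IntgQN w (compSL (compSL a.1 δ⁻¹) γ) (toCι ι (a.2 (δ⁻¹ * γ))) ∧ a.2 (δ⁻¹ * γ) ∈ fracField O
    rw [← compSL_mul]
    exact ha3 (δ⁻¹ * γ)

instance instSMul : SMul SL(2, ℤ) (ModRing ι O w) :=
  ⟨fun δ a => ⟨smulAmb δ a.1, isMod_smulAmb δ a.2⟩⟩

theorem smul_fst (δ : SL(2, ℤ)) (a : ModRing ι O w) : (δ • a).1.1 = compSL a.1.1 δ⁻¹ := rfl

theorem smul_snd (δ γ : SL(2, ℤ)) (a : ModRing ι O w) : (δ • a).1.2 γ = a.1.2 (δ⁻¹ * γ) := rfl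

instance instMulSemiringAction : MulSemiringAction SL(2, ℤ) (ModRing ι O w) where
  one_smul a := by
    apply Subtype.ext
    apply Prod.ext
    · show compSL a.1.1 (1 : SL(2, ℤ))⁻¹ = a.1.1
      rw [inv_one, compSL_one]
    · funext γ
      show a.1.2 ((1 : SL(2, ℤ))⁻¹ * γ) = a.1.2 γ
      rw [inv_one, one_mul]
  mul_smul δ δ' a := by
    apply Subtype.ext
    apply Prod.ext
    · show compSL a.1.1 (δ * δ')⁻¹ = compSL (compSL a.1.1 δ'⁻¹) δ⁻¹
      rw [mul_inv_rev, compSL_mul]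
    · funext γ
      show a.1.2 ((δ * δ')⁻¹ * γ) = a.1.2 (δ'⁻¹ * (δ⁻¹ * γ))
      rw [mul_inv_rev, mul_assoc]
  smul_zero δ := rfl
  smul_add δ a b := rfl
  smul_one δ := rfl
  smul_mul δ a b := rfl

/-- `Γ(w)` acts trivially. -/
theorem smul_eq_self_of_mem_Gamma {δ : SL(2, ℤ)} (hδ : δ ∈ Gamma w)
    (a : ModRing ι O w) : δ • a = a := by
  apply ext_of_fst
  rw [smul_fst]
  exact a.fst_invariant (inv_mem hδ)

/-- `expInf (δ • a)` is the expansion of `a` at the cusp `δ⁻¹`. -/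
theorem expInf_smul (δ : SL(2, ℤ)) (a : ModRing ι O w) : expInf ι O w (δ • a) = a.1.2 δ⁻¹ := by
  rw [expInf_apply, smul_snd, mul_one]

/-! ### Constants and `j` -/

variable (ι O w) in
/-- The constant `c ∈ K`. -/
def constMod (c : K) : ModRing ι O w :=
  ⟨(fun _ => ι c, fun _ => algebraMap K (LaurentSeries K) c), by
    refine ⟨HolH.algebraMap_mem (ι c), fun δ _ => rfl, fun γ => ⟨?_, (fracField O).algebraMap_mem c⟩⟩
    show IntgQN w (compSL (fun _ => ι c) γ) (toCι ι (algebraMap K (LaurentSeries K) c))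
    rw [toCι_algebraMap, compSL_const]
    exact intg_qn_const w (ι c)⟩

@[simp] theorem expInf_constMod (c : K) :
    expInf ι O w (constMod ι O w c) = algebraMap K (LaurentSeries K) c := rfl

theorem smul_constMod (δ : SL(2, ℤ)) (c : K) : δ • constMod ι O w c = constMod ι O w c := rfl

end Fermat.Agent.DS.G.RED.Igusa.ModRing11
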