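/-
DS / chapter G-RED, brick IGU-D (hedge, helper11), part 2: **the level-`w` field and its Galois
group**.

`FracMod ι O w := Frac (modRing ι O w)` with the action of the finite group
`QGam w := SL(2,ℤ) ⧸ Γ(w)`; `BaseField := ` the fixed field.  By Artin (Mathlib `FixedPoints`),
`FracMod / BaseField` is finite Galois and `galHom : SL(2,ℤ) →* Gal(FracMod / BaseField)` is
surjective with `Γ(w)` in the kernel.  The expansion at infinity `ιInf : FracMod →+* K((Q))` has
values in `Frac O((Q))` and maps `BaseField` ONTO `K(j(Q^w))` (level-one principle).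
-/
import Mathlib
import Fermat.Agent.DS.G.RED.Igusa.ModRing11.Ring
import Fermat.Prelude.Def_ModularCurve_X0ModL

set_option autoImplicit false
set_option linter.unusedSectionVars false

open UpperHalfPlane ModularCurve IntermediateField
open scoped MatrixGroups

noncomputable section

namespace Fermat.Agent.DS.G.RED.Igusa.ModRing11

open Fermat.Agent.X0 Fermat.Agent.X0.Analytic Polynomial
open Fermat.Agent.DS.G.X0.Realize (toCι toCι_injective toCι_algebraMap toCι_coeff)
open Fermat.Agent.DS.G.X0.IntegralityLc (jqc toCι_jqc intg_toC_jN intg_core)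
open Fermat.Agent.RED.PUR.GaussGen8 (fracField gaussRing)
open CongruenceSubgroup

variable {K : Type} [Field K] [Algebra ℚ K] (ι : K →+* ℂ) (O : ValuationSubring K)
  (w : ℕ) [NeZero w]

/-! ### The finite group `SL(2,ℤ) ⧸ Γ(w)` and its action -/

instance instNormalGamma : (Gamma w).Normal := Gamma_normal w

/-- `SL(2,ℤ) ⧸ Γ(w)`. -/
abbrev QGam : Type := SL(2, ℤ) ⧸ Gamma w

instance instFiniteQGam : Finite (QGam w) := Subgroup.finite_quotient_of_finiteIndex

/-- The action of `SL(2,ℤ)` on `modRing` as a hom to ring automorphisms. -/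
def actHom : SL(2, ℤ) →* RingAut (ModRing ι O w) :=
  MulSemiringAction.toRingAut SL(2, ℤ) (ModRing ι O w)

theorem actHom_apply (δ : SL(2, ℤ)) (a : ModRing ι O w) : actHom ι O w δ a = δ • a := rfl

theorem Gamma_le_ker_actHom : Gamma w ≤ (actHom ι O w).ker := by
  intro δ hδ
  rw [MonoidHom.mem_ker]
  apply RingEquiv.ext
  intro a
  rw [actHom_apply, smul_eq_self_of_mem_Gamma hδ]
  rfl

/-- The induced action of the quotient. -/
def actQ : QGam w →* RingAut (ModRing ι O w) :=
  QuotientGroup.lift (Gamma w) (actHom ι O w) (Gamma_le_ker_actHom ι O w)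

instance instActQ : MulSemiringAction (QGam w) (ModRing ι O w) :=
  MulSemiringAction.compHom _ (actQ ι O w)

variable {ι O w}

theorem mk_smul (δ : SL(2, ℤ)) (a : ModRing ι O w) :
    (QuotientGroup.mk δ : QGam w) • a = δ • a := rfl

theorem forall_QGam_smul_iff (a : ModRing ι O w) :
    (∀ q : QGam w, q • a = a) ↔ ∀ δ : SL(2, ℤ), δ • a = a := by
  constructor
  · intro h δ
    exact h (QuotientGroup.mk δ)
  · intro h q
    induction q using QuotientGroup.induction_on with
    | H δ => exact h δ

variable (ι O w)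

/-! ### The fraction field -/

/-- The level-`w` field. -/
abbrev FracMod : Type := FractionRing (ModRing ι O w)

instance instActFrac : MulSemiringAction (QGam w) (FracMod ι O w) :=
  IsFractionRing.mulSemiringAction (QGam w) (ModRing ι O w) (FracMod ι O w)

instance instDistribFrac : SMulDistribClass (QGam w) (ModRing ι O w) (FracMod ι O w) :=
  IsFractionRing.smulDistribClass (QGam w) (ModRing ι O w) (FracMod ι O w)

variable {ι O w}

theorem smul_algebraMap' (q : QGam w) (a : ModRing ι O w) :
    q • algebraMap (ModRing ι O w) (FracMod ι O w) a =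
      algebraMap (ModRing ι O w) (FracMod ι O w) (q • a) :=
  (algebraMap.smul' q a (FracMod ι O w)).symm

variable (ι O w)

/-- The base field: the fixed field of `SL(2,ℤ) ⧸ Γ(w)`. -/
abbrev BaseField : Type := ↥(FixedPoints.subfield (QGam w) (FracMod ι O w))

/-- **The expansion at infinity** on the level-`w` field. -/
def ιInf : FracMod ι O w →+* LaurentSeries K :=
  IsFractionRing.lift (expInf_injective (ι := ι) (O := O) (w := w))

variable {ι O w}

@[simp] theorem ιInf_algebraMap (a : ModRing ι O w) :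
    ιInf ι O w (algebraMap (ModRing ι O w) (FracMod ι O w) a) = expInf ι O w a :=
  IsFractionRing.lift_algebraMap _ a

theorem exists_div (x : FracMod ι O w) : ∃ a b : ModRing ι O w, b ≠ 0 ∧
    x = algebraMap (ModRing ι O w) (FracMod ι O w) a /
      algebraMap (ModRing ι O w) (FracMod ι O w) b := by
  obtain ⟨a, b, hb, rfl⟩ := IsFractionRing.div_surjective (A := ModRing ι O w) x
  exact ⟨a, b, nonZeroDivisors.ne_zero hb, rfl⟩

/-- `ιInf` has values in `Frac O((Q))`. -/
theorem ιInf_mem_fracField (x : FracMod ι O w) : ιInf ι O w x ∈ fracField O := by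
  obtain ⟨a, b, _, rfl⟩ := exists_div x
  rw [map_div₀, ιInf_algebraMap, ιInf_algebraMap]
  exact div_mem (expInf_mem_fracField a) (expInf_mem_fracField b)

/-! ### Fixed elements: the level-one principle -/

theorem jqc_eq (K : Type) [Field K] [Algebra ℚ K] : jqc K = jqModC K := by
  unfold jqc
  rw [← jqModC_rat]
  exact map_jqModC (algebraMap ℚ K)

/-- An `SL(2,ℤ)`-fixed element of `modRing` has expansion in `K(j(Q^w))`. -/
theorem expInf_mem_adjoin_of_fixed (a : ModRing ι O w) (ha : ∀ δ : SL(2, ℤ), δ • a = a) :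
    expInf ι O w a ∈ K⟮qExpand K w (jqModC K)⟯ := by
  have hinv : ∀ (δ : SL(2, ℤ)) (z : ℍ), a.1.1 (δ • z) = a.1.1 z := by
    intro δ z
    have h := congrArg (fun b : ModRing ι O w => b.1.1 z) (ha δ⁻¹)
    simp only [smul_fst, inv_inv] at h
    exact h
  obtain ⟨p, hp, -⟩ := intg_core ι ι.injective w (κ := Unit) (fun _ => a.1.1)
    (fun _ => a.1.2 1) (fun _ => a.fst_mem_HolH)
    (fun _ => by
      have := a.intgQN 1
      rwa [compSL_one] at this)
    (fun δ => ⟨1, fun _ z => hinv δ z⟩) 0
  rw [Fintype.prod_unique, coeff_sub, coeff_X_zero, coeff_C_zero, zero_sub, jqc_eq] at hp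
  have h2 : expInf ι O w a = aeval (qExpand K w (jqModC K)) (-p) := by
    rw [map_neg, ← hp, neg_neg]
    rfl
  rw [h2]
  exact IntermediateField.algebra_adjoin_le_adjoin K _
    (Polynomial.aeval_mem_adjoin_singleton K _)

/-- A fixed element of the fraction field is a quotient of fixed elements of `modRing`. -/
theorem exists_fixed_div (x : FracMod ι O w) (hx : ∀ q : QGam w, q • x = x) :
    ∃ a b : ModRing ι O w, b ≠ 0 ∧ (∀ q : QGam w, q • a = a) ∧ (∀ q : QGam w, q • b = b) ∧
      x = algebraMap (ModRing ι O w) (FracMod ι O w) a /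
        algebraMap (ModRing ι O w) (FracMod ι O w) b := by
  classical
  haveI : Fintype (QGam w) := Fintype.ofFinite _
  obtain ⟨a₀, b₀, hb₀, rfl⟩ := exists_div x
  set P : ModRing ι O w := ∏ q ∈ (Finset.univ : Finset (QGam w)).erase 1, q • b₀ with hP
  set N : ModRing ι O w := ∏ q : QGam w, q • b₀ with hN
  have hNP : N = b₀ * P := by
    rw [hN, hP, ← Finset.mul_prod_erase Finset.univ (fun q : QGam w => q • b₀) (Finset.mem_univ 1),
      one_smul]
  have hne : ∀ q : QGam w, q • b₀ ≠ 0 := fun q => (smul_ne_zero_iff_ne q).mpr hb₀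
  have hP0 : P ≠ 0 := Finset.prod_ne_zero_iff.mpr fun q _ => hne q
  have hN0 : N ≠ 0 := Finset.prod_ne_zero_iff.mpr fun q _ => hne q
  have hNfix : ∀ q : QGam w, q • N = N := by
    intro q
    rw [hN, Finset.smul_prod']
    simp only [← mul_smul]
    exact Fintype.prod_equiv (Equiv.mulLeft q) _ _ fun _ => rfl
  have hinj := IsFractionRing.injective (ModRing ι O w) (FracMod ι O w)
  have hmapP : algebraMap (ModRing ι O w) (FracMod ι O w) P ≠ 0 := by
    rwa [Ne, map_eq_zero_iff _ hinj]
  have hxeq : algebraMap (ModRing ι O w) (FracMod ι O w) a₀ /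
      algebraMap (ModRing ι O w) (FracMod ι O w) b₀ =
      algebraMap (ModRing ι O w) (FracMod ι O w) (a₀ * P) /
        algebraMap (ModRing ι O w) (FracMod ι O w) N := by
    rw [hNP, map_mul, map_mul, mul_div_mul_right _ _ hmapP]
  refine ⟨a₀ * P, N, hN0, ?_, hNfix, hxeq⟩
  intro q
  apply hinj
  have hmapN : algebraMap (ModRing ι O w) (FracMod ι O w) N ≠ 0 := by
    rwa [Ne, map_eq_zero_iff _ hinj]
  have h1 : algebraMap (ModRing ι O w) (FracMod ι O w) (a₀ * P) =
      (algebraMap (ModRing ι O w) (FracMod ι O w) a₀ /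
        algebraMap (ModRing ι O w) (FracMod ι O w) b₀) *
        algebraMap (ModRing ι O w) (FracMod ι O w) N := by
    rw [hxeq, div_mul_cancel₀ _ hmapN]
  rw [← smul_algebraMap', h1, smul_mul', hx q, smul_algebraMap', hNfix q]

/-- `ιInf` maps the fixed field into `K(j(Q^w))`. -/
theorem ιInf_mem_adjoin_of_fixed (x : FracMod ι O w) (hx : ∀ q : QGam w, q • x = x) :
    ιInf ι O w x ∈ K⟮qExpand K w (jqModC K)⟯ := by
  obtain ⟨a, b, _, ha, hb, rfl⟩ := exists_fixed_div x hx
  rw [map_div₀, ιInf_algebraMap, ιInf_algebraMap]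
  exact div_mem (expInf_mem_adjoin_of_fixed a ((forall_QGam_smul_iff a).mp ha))
    (expInf_mem_adjoin_of_fixed b ((forall_QGam_smul_iff b).mp hb))

/-! ### The element `j` -/

variable (ι O w) in
/-- The modular invariant `j`, with expansion `j(Q^w)` at every cusp. -/
def jMod : ModRing ι O w :=
  ⟨(jFun, fun _ => qExpand K w (jqModC K)), by
    refine ⟨jFun_mdifferentiable, fun δ _ => funext fun z => jFun_smul δ z, fun γ => ⟨?_, ?_⟩⟩
    · show IntgQN w (compSL jFun γ) (toCι ι (qExpand K w (jqModC K)))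
      have h1 : compSL jFun γ = jFun := funext fun z => jFun_smul γ z
      rw [h1, ← jqc_eq, Fermat.Agent.DS.G.X0.IntegralityLc.intg_toC_jN ι w]
      exact intg_qn_jFun w
    · show qExpand K w (jqModC K) ∈ fracField O
      have h : Fermat.Agent.RED.PUR.GaussGen8.embK O (qExpand ↥O w (jqModC ↥O)) =
          qExpand K w (jqModC K) := by
        unfold Fermat.Agent.RED.PUR.GaussGen8.embK
        rw [ModularCurve.coeffMap_qExpand, coeffMap_jqModC]
      rw [← h]
      exact Fermat.Agent.RED.PUR.GaussGen8.embK_mem_fracField O _⟩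

@[simp] theorem expInf_jMod : expInf ι O w (jMod ι O w) = qExpand K w (jqModC K) := rfl

theorem smul_jMod (δ : SL(2, ℤ)) : δ • jMod ι O w = jMod ι O w := by
  apply ext_of_snd_one
  rfl

/-- `ιInf` maps the fixed field ONTO `K(j(Q^w))`. -/
theorem exists_fixed_of_mem_adjoin {y : LaurentSeries K}
    (hy : y ∈ K⟮qExpand K w (jqModC K)⟯) :
    ∃ x : FracMod ι O w, (∀ q : QGam w, q • x = x) ∧ ιInf ι O w x = y := by
  induction hy using IntermediateField.adjoin_induction with
  | mem y hy =>
      rw [Set.mem_singleton_iff] at hy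
      subst hy
      refine ⟨algebraMap _ _ (jMod ι O w), fun q => ?_, by rw [ιInf_algebraMap, expInf_jMod]⟩
      rw [smul_algebraMap']
      congr 1
      exact (forall_QGam_smul_iff _).mpr (fun δ => smul_jMod δ) q
  | algebraMap c =>
      refine ⟨algebraMap _ _ (constMod ι O w c), fun q => ?_,
        by rw [ιInf_algebraMap, expInf_constMod]⟩
      rw [smul_algebraMap']
      congr 1
      exact (forall_QGam_smul_iff _).mpr (fun δ => smul_constMod δ c) q
  | add y z _ _ ihy ihz =>
      obtain ⟨x, hx, rfl⟩ := ihy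
      obtain ⟨x', hx', rfl⟩ := ihz
      exact ⟨x + x', fun q => by rw [smul_add, hx q, hx' q], map_add _ _ _⟩
  | inv y _ ihy =>
      obtain ⟨x, hx, rfl⟩ := ihy
      exact ⟨x⁻¹, fun q => by rw [smul_inv'', hx q], map_inv₀ _ _⟩
  | mul y z _ _ ihy ihz =>
      obtain ⟨x, hx, rfl⟩ := ihy
      obtain ⟨x', hx', rfl⟩ := ihz
      exact ⟨x * x', fun q => by rw [smul_mul', hx q, hx' q], map_mul _ _ _⟩

/-! ### The Galois group -/

variable (ι O w)

/-- **The (surjective) homomorphism `SL(2,ℤ) → Gal(FracMod / BaseField)`.** -/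
def galHom : SL(2, ℤ) →* (FracMod ι O w ≃ₐ[BaseField ι O w] FracMod ι O w) :=
  (MulSemiringAction.toAlgAut (QGam w) (BaseField ι O w) (FracMod ι O w)).comp
    (QuotientGroup.mk' (Gamma w))

variable {ι O w}

theorem galHom_apply (δ : SL(2, ℤ)) (x : FracMod ι O w) :
    galHom ι O w δ x = (QuotientGroup.mk δ : QGam w) • x := rfl

theorem galHom_algebraMap (δ : SL(2, ℤ)) (a : ModRing ι O w) :
    galHom ι O w δ (algebraMap (ModRing ι O w) (FracMod ι O w) a) =
      algebraMap (ModRing ι O w) (FracMod ι O w) (δ • a) := by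
  rw [galHom_apply, smul_algebraMap', mk_smul]

theorem galHom_surjective : Function.Surjective (galHom ι O w) := by
  intro β
  obtain ⟨q, hq⟩ := FixedPoints.toAlgAut_surjective (QGam w) (FracMod ι O w) β
  obtain ⟨δ, rfl⟩ := QuotientGroup.mk_surjective q
  exact ⟨δ, hq⟩

theorem Gamma_le_ker_galHom : Gamma w ≤ (galHom ι O w).ker := by
  intro δ hδ
  rw [MonoidHom.mem_ker]
  show (MulSemiringAction.toAlgAut (QGam w) (BaseField ι O w) (FracMod ι O w))
    (QuotientGroup.mk' (Gamma w) δ) = 1
  rw [QuotientGroup.mk'_apply, (QuotientGroup.eq_one_iff δ).mpr hδ, map_one]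

end Fermat.Agent.DS.G.RED.Igusa.ModRing11
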