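/-
DS / chapter G-RED, brick IGU-D (hedge, helper11), part 3: **`IgusaInput K O M` from the ring of
level-`M` modular functions**.

Inputs: a unit `ζ` of `O` with `ι ζ = exp(2πi/M)`, and the MEMBERSHIP hypothesis
`hjd` : for every `d ∣ M` there is an element of `modRing ι O M` with expansion `j(Q^{M d})` at
infinity (i.e. `z ↦ j(d z)` has `K`-rational, `O`-bounded `q_M`-expansions at all cusps).

Output: `igusaInput ι O M ζ hζ hjd : Igu77.Input.IgusaInput K O M` with
`L = FracMod ι O M`, `ι = ιInf`, via helper31's `InputOfSL2.ofSL2`.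
-/
import Mathlib
import Fermat.Agent.DS.G.RED.Igusa.ModRing11.Field
import Fermat.Agent.DS.G.RED.Igusa.InputOfSL2
import Fermat.Agent.X0.CuspDistinct
import Fermat.Agent.X0.HermiteCoset
import Fermat.Agent.X0.HermiteFull
import Fermat.Agent.X0.JdExp

set_option autoImplicit false
set_option linter.unusedSectionVars false

open UpperHalfPlane ModularCurve IntermediateField
open scoped MatrixGroups

noncomputable section

namespace Fermat.Agent.DS.G.RED.Igusa.ModRing11

open Fermat.Agent.X0 Fermat.Agent.X0.Analytic Polynomial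
open Fermat.Agent.DS.G.X0.Realize (toCι toCι_injective toCι_algebraMap toCι_coeff)
open Fermat.Agent.DS.G.X0.CuspEquiv (zetaC zetaC_ne_zero isQExp_comp_T)
open Fermat.Agent.X0.CuspEquiv (twist twist_coeff twist_laurentOf)
open Fermat.Agent.RED.PUR.GaussGen8 (fracField gaussRing)
open Fermat.Agent.ES.KRON.KronCong24 (twistU twistU_coeff twistU_mul twistU_one)
open Fermat.Agent.DS.G.RED.Igusa.TwistGauss (unitK unitK_inv twistU_inv_twistU)
open Fermat.Agent.DS.Igu77.Input (IgusaInput E0V)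
open CongruenceSubgroup

variable {K : Type} [Field K] [Algebra ℚ K] {ι : K →+* ℂ} {O : ValuationSubring K}
  {w : ℕ} [NeZero w]

/-! ### From `IntgQN` back to `IsQExp` -/

theorem exists_isQExp_of_intgQN {g : ℍ → ℂ} {T : LaurentSeries ℂ} (h : IntgQN w g T) :
    ∃ (m : ℕ) (P : PowerSeries ℂ), IsQExp w g m P ∧ T = laurentOf m P := by
  obtain ⟨m, P, hP, hT⟩ := HasQExp.exists_isQExp h
  refine ⟨m, P, fun z => ?_, hT⟩
  have h1 := hP (intg_divH w z)
  have hq : qh 1 (intg_divH w z) = qh w z := by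
    have h2 := intg_qh_scaleH w (intg_divH w z)
    rw [intg_scaleH_divH] at h2
    rw [h2]
    unfold qh qH
    rw [Nat.cast_one]
  rw [hq] at h1
  simp only [intg_scaleH_divH] at h1
  exact h1

/-! ### The translation `T` acts by the twist `Q ↦ ζ_w Q` -/

/-- over `ℂ`: the expansion at infinity is the `ζ_w`-twist of the expansion at `T⁻¹`. -/
theorem toCι_snd_one_eq_twist (a : ModRing ι O w) :
    toCι ι (a.1.2 1) =
      twist (zetaC w) (zetaC_ne_zero w) (toCι ι (a.1.2 ModularGroup.T⁻¹)) := by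
  obtain ⟨m, P, hP, hT⟩ := exists_isQExp_of_intgQN (a.intgQN ModularGroup.T⁻¹)
  have h1 := isQExp_comp_T w hP
  have hfun : (fun z => compSL a.1.1 ModularGroup.T⁻¹ (ModularGroup.T • z)) = a.1.1 := by
    funext z
    show a.1.1 (ModularGroup.T⁻¹ • ModularGroup.T • z) = a.1.1 z
    rw [inv_smul_smul]
  rw [hfun] at h1
  have h2 := intg_qn_of_isQExp w h1
  have h3 := a.intgQN 1
  rw [compSL_one] at h3
  rw [intg_qn_unique w h3 h2, hT, twist_laurentOf]

theorem toCι_twistU (u : Kˣ) (x : LaurentSeries K) :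
    toCι ι (twistU u x) = twist (ι (u : K)) ((map_ne_zero ι).mpr u.ne_zero) (toCι ι x) := by
  ext n
  rw [toCι_coeff, twistU_coeff, twist_coeff, toCι_coeff, map_mul, Units.val_zpow_eq_zpow_val,
    map_zpow₀]

/-- over `K`: the expansion at `T⁻¹` is the `ζ⁻¹`-twist of the expansion at infinity. -/
theorem snd_T_inv_eq_twistU (u : Kˣ) (hu : ι (u : K) = zetaC w) (a : ModRing ι O w) :
    a.1.2 ModularGroup.T⁻¹ = twistU u⁻¹ (a.1.2 1) := by
  have h : a.1.2 1 = twistU u (a.1.2 ModularGroup.T⁻¹) := by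
    apply toCι_injective ι ι.injective
    rw [toCι_snd_one_eq_twist, toCι_twistU]
    ext n
    rw [twist_coeff, twist_coeff, hu]
  rw [h, twistU_inv_twistU]

/-- **`hT`**: the Galois automorphism attached to `T` is the twist `Q ↦ ζ⁻¹ Q`. -/
theorem ιInf_galHom_T (ζ : (↥O)ˣ) (hζ : ι ((ζ : ↥O) : K) = zetaC w) (x : FracMod ι O w) :
    ιInf ι O w (galHom ι O w ModularGroup.T x) = twistU (unitK O ζ⁻¹) (ιInf ι O w x) := by
  have hu : ι ((unitK O ζ : Kˣ) : K) = zetaC w := hζ
  obtain ⟨a, b, _, rfl⟩ := exists_div x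
  have key : ∀ c : ModRing ι O w,
      ιInf ι O w (galHom ι O w ModularGroup.T (algebraMap _ _ c)) =
        twistU (unitK O ζ⁻¹) (ιInf ι O w (algebraMap _ _ c)) := by
    intro c
    rw [galHom_algebraMap, ιInf_algebraMap, ιInf_algebraMap, expInf_smul, unitK_inv,
      snd_T_inv_eq_twistU (unitK O ζ) hu c]
    rfl
  simp only [map_div₀, key]

/-! ### `Γ₀(M)` from `j(M z)` -/

/-- If `j(M γ z) = j(M γ' z)` for all `z` then `γ' γ⁻¹ ∈ Γ₀(M)` (copy of
`DS/X1/GabDist.mem_Gamma0_of_compSL_jdFun_eq`, to keep the import closure small). -/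
theorem mem_Gamma0_of_compSL_jdFun_eq' (N : ℕ) [NeZero N] (γ γ' : SL(2, ℤ))
    (h : compSL (jdFun N) γ = compSL (jdFun N) γ') : γ' * γ⁻¹ ∈ Gamma0 N := by
  obtain ⟨δ, a, e, b, ha, he, hae, _, _, _, h3, h4, _, hj⟩ := HermiteFull.exists_hermite_full γ N
  obtain ⟨δ', a', e', b', ha', he', hae', _, _, _, h3', h4', _, hj'⟩ :=
    HermiteFull.exists_hermite_full γ' N
  have hfun : (fun z => jFun (Hermite.affH a e b ha he z)) =
      fun z => jFun (Hermite.affH a' e' b' ha' he' z) := by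
    funext z
    rw [← hj z, ← hj' z]
    exact congrFun h z
  have q1 := CuspDistinct.cd_isQExp_jFun_affH (N := N) b ha he hae
  have q2 := CuspDistinct.cd_isQExp_jFun_affH (N := N) b' ha' he' hae'
  rw [hfun] at q1
  have e1 := CuspDistinct.cd_isQExp_unique q2 q1
  obtain ⟨haa, hz⟩ := CuspDistinct.cd_eq_of_laurentOf_eq ha' ha e1
  subst haa
  have hee : e' = e := by
    have : a' * e' = a' * e := by rw [hae', hae]
    exact Nat.eq_of_mul_eq_mul_left ha' this
  subst hee
  have hbb : (e' : ℤ) ∣ b - b' := CuspDistinct.cd_dvd_of_zeta_eq he' hz.symm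
  exact Hermite.mem_Gamma0_of_hermite γ γ' hae hbb h3 h4 h3' h4'

section Level

variable {M : ℕ} [NeZero M]

/-- An element of `modRing` with expansion `j(Q^{M d})` at infinity is `z ↦ j(d z)`. -/
theorem fst_eq_jdFun (d : ℕ) [NeZero d] (a : ModRing ι O M)
    (ha : expInf ι O M a = qExpand K M (qExpand K d (jqModC K))) : a.1.1 = jdFun d := by
  have h1 := a.intgQN 1
  rw [compSL_one] at h1
  have h2 : toCι ι (a.1.2 1) = qExpand ℂ M (qExpand ℂ d (jqModC ℂ)) := by
    have : a.1.2 1 = qExpand K M (qExpand K d (jqModC K)) := ha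
    rw [this, toCι, ModularCurve.coeffMap_qExpand, ModularCurve.coeffMap_qExpand, coeffMap_jqModC]
  rw [h2] at h1
  have h3 : IntgQN M (jdFun d) (qExpand ℂ M (qExpand ℂ d (jqModC ℂ))) :=
    (hasQExp_jqModC.qExpand d).qExpand M
  exact intg_qn_unique_right M h1 h3

/-- **`hfix`**: an automorphism fixing (the element with expansion) `j(Q^{M²})` comes from
`Γ₀(M)`. -/
theorem exists_mem_Gamma0_of_fixes (aM : ModRing ι O M)
    (haM : expInf ι O M aM = qExpand K M (qExpand K M (jqModC K)))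
    (β : FracMod ι O M ≃ₐ[BaseField ι O M] FracMod ι O M)
    (hβ : β (algebraMap _ _ aM) = algebraMap _ _ aM) :
    ∃ γ ∈ Gamma0 M, galHom ι O M γ = β := by
  obtain ⟨γ, rfl⟩ := galHom_surjective β
  refine ⟨γ, ?_, rfl⟩
  rw [galHom_algebraMap] at hβ
  have h1 : γ • aM = aM := IsFractionRing.injective (ModRing ι O M) (FracMod ι O M) hβ
  have h2 : compSL aM.1.1 γ⁻¹ = aM.1.1 := by
    have := congrArg (fun b : ModRing ι O M => b.1.1) h1
    simpa only [smul_fst] using this
  rw [fst_eq_jdFun M aM haM] at h2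
  have h3 : compSL (jdFun M) γ⁻¹ = compSL (jdFun M) 1 := by rw [h2, compSL_one]
  have h4 := mem_Gamma0_of_compSL_jdFun_eq' M γ⁻¹ 1 h3
  rwa [inv_inv, one_mul] at h4

/-- **`full`**: `V(K(j(q^d) : d ∣ M)) ⊆ ιInf (FracMod)`. -/
theorem exists_of_mem_E0V
    (hjd : ∀ (d : ℕ) [NeZero d], d ∣ M →
      ∃ a : ModRing ι O M, expInf ι O M a = qExpand K M (qExpand K d (jqModC K)))
    {y : LaurentSeries K} (hy : y ∈ E0V K M) : ∃ x : FracMod ι O M, ιInf ι O M x = y := by
  obtain ⟨y₀, hy₀, rfl⟩ := hy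
  show ∃ x : FracMod ι O M, ιInf ι O M x = qExpandAlgHomC K M y₀
  unfold modularFunctionFieldFullC at hy₀
  induction hy₀ using IntermediateField.adjoin_induction with
  | mem y hy =>
      obtain ⟨d, hd, hdM, rfl⟩ := hy
      obtain ⟨a, ha⟩ := hjd d hdM
      exact ⟨algebraMap _ _ a, by rw [ιInf_algebraMap, ha]; rfl⟩
  | algebraMap c =>
      refine ⟨algebraMap _ _ (constMod ι O M c), ?_⟩
      rw [ιInf_algebraMap, expInf_constMod, AlgHom.commutes]
  | add y z _ _ ihy ihz =>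
      obtain ⟨x, hx⟩ := ihy
      obtain ⟨x', hx'⟩ := ihz
      exact ⟨x + x', by rw [map_add, map_add, hx, hx']⟩
  | inv y _ ihy =>
      obtain ⟨x, hx⟩ := ihy
      exact ⟨x⁻¹, by rw [map_inv₀, map_inv₀, hx]⟩
  | mul y z _ _ ihy ihz =>
      obtain ⟨x, hx⟩ := ihy
      obtain ⟨x', hx'⟩ := ihz
      exact ⟨x * x', by rw [map_mul, map_mul, hx, hx']⟩

variable (ι O M)

/-- **The Igusa input attached to the ring of level-`M` modular functions.** -/
def igusaInput (ζ : (↥O)ˣ) (hζ : ι ((ζ : ↥O) : K) = zetaC M)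
    (hjd : ∀ (d : ℕ) [NeZero d], d ∣ M →
      ∃ a : ModRing ι O M, expInf ι O M a = qExpand K M (qExpand K d (jqModC K))) :
    IgusaInput K O M :=
  InputOfSL2.ofSL2 O M (k := BaseField ι O M) (L := FracMod ι O M) (ιInf ι O M)
    ιInf_mem_fracField
    (fun c => ιInf_mem_adjoin_of_fixed (c : FracMod ι O M) c.2)
    (fun y hy => by
      obtain ⟨x, hx, rfl⟩ := exists_fixed_of_mem_adjoin (ι := ι) (O := O) hy
      exact ⟨⟨x, hx⟩, rfl⟩)
    (fun y hy => exists_of_mem_E0V hjd hy)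
    (galHom ι O M) galHom_surjective Gamma_le_ker_galHom ζ⁻¹
    (fun x => ιInf_galHom_T ζ hζ x)
    (fun β hβ => by
      obtain ⟨aM, haM⟩ := hjd M dvd_rfl
      refine exists_mem_Gamma0_of_fixes aM haM β (hβ _ ?_)
      rw [ιInf_algebraMap, haM, qExpand_qExpand])

variable {ι O M}

@[simp] theorem igusaInput_L (ζ : (↥O)ˣ) (hζ : ι ((ζ : ↥O) : K) = zetaC M)
    (hjd : ∀ (d : ℕ) [NeZero d], d ∣ M →
      ∃ a : ModRing ι O M, expInf ι O M a = qExpand K M (qExpand K d (jqModC K))) :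
    (igusaInput ι O M ζ hζ hjd).L = FracMod ι O M := rfl

/-- Every element of `modRing` gives an element of `(igusaInput …).L` with the same expansion:
the input `hE1L` of `Igu77.Final.g1_of_igusaInput`. -/
theorem exists_ι_eq (ζ : (↥O)ˣ) (hζ : ι ((ζ : ↥O) : K) = zetaC M)
    (hjd : ∀ (d : ℕ) [NeZero d], d ∣ M →
      ∃ a : ModRing ι O M, expInf ι O M a = qExpand K M (qExpand K d (jqModC K)))
    (a : ModRing ι O M) :
    ∃ b : (igusaInput ι O M ζ hζ hjd).L, (igusaInput ι O M ζ hζ hjd).ι b = expInf ι O M a :=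
  ⟨algebraMap (ModRing ι O M) (FracMod ι O M) a, ιInf_algebraMap a⟩

end Level

end Fermat.Agent.DS.G.RED.Igusa.ModRing11
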