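/-
DS / chapter G-RED, brick IGU-D (hedge, helper11), part 4: **the membership inputs discharged**.

With helper27's bounded-denominator package `DS/X1/GabCuspFrac27` the hypothesis `hjd` of
`igusaInput` is a theorem, so that

* `igusaInputOfZeta ι O M ζ hζ : IgusaInput K O M` needs only a unit `ζ` of `O` with
  `ι ζ = exp(2πi/M)` (no hypothesis on `O`, `M`);
* `exists_ι_eq_qExpand` : for ANY level `L` with `L.w = M`-expansions bounded (`hbdd`), every element
  of `FFc L K` lifts to `(igusaInputOfZeta …).L` — the hypothesis `hE1L` of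
  `Igu77.Final.g1_of_igusaInput`, and `hD` of `ResGenTower31.resField_FC_eq_of_diamonds`;
* `exists_ι_eq_qExpand_L1` : the instance `L1 M` (`±Γ₁(M)`), unconditional.
-/
import Mathlib
import Fermat.Agent.DS.G.RED.Igusa.ModRing11.Input
import Fermat.Agent.DS.X1.GabCuspFrac27
import Fermat.Agent.DS.G.X0.FracR

set_option autoImplicit false
set_option linter.unusedSectionVars false

open UpperHalfPlane ModularCurve IntermediateField
open scoped MatrixGroups

noncomputable section

namespace Fermat.Agent.DS.G.RED.Igusa.ModRing11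

open Fermat.Agent.X0 Fermat.Agent.X0.Analytic Polynomial
open Fermat.Agent.DS.G.X0.Realize (toCι toCι_injective toCι_algebraMap toCι_coeff
  hasQExp_of_realizeData)
open Fermat.Agent.DS.G.X0.CuspEquiv (zetaC)
open Fermat.Agent.RED.PUR.GaussGen8 (fracField gaussRing)
open Fermat.Agent.DS.Igu77.Input (IgusaInput)
open Fermat.Agent.DS.X1.GabCuspFrac27 (QExpFr qExpFr_compSL_jdFun cuspData1_T_mem_fracField)
open Fermat.Agent.DS.G.Level
open CongruenceSubgroup

variable {K : Type} [Field K] [Algebra ℚ K] {ι : K →+* ℂ} {O : ValuationSubring K}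

/-! ### Elements of `modRing` from analytic data -/

section Build

variable {w : ℕ} [NeZero w]

/-- A holomorphic `Γ(w)`-invariant function all of whose cusp expansions are `K`-rational and
`O`-bounded is the first component of an element of `modRing`. -/
theorem exists_modRing_of_qExpFr {f : ℍ → ℂ} (hf : f ∈ HolH)
    (hinv : ∀ δ ∈ Gamma w, compSL f δ = f)
    (hq : ∀ γ : SL(2, ℤ), QExpFr O ι w (compSL f γ)) : ∃ a : ModRing ι O w, a.1.1 = f := by
  choose m P hP hmem using hq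
  refine ⟨⟨(f, fun γ => laurentOf (m γ) (P γ)), hf, hinv, fun γ => ⟨?_, hmem γ⟩⟩, rfl⟩
  show IntgQN w (compSL f γ) (toCι ι (laurentOf (m γ) (P γ)))
  rw [toCι, Fermat.Agent.X0.coeffMap_laurentOf]
  exact intg_qn_of_isQExp w (hP γ)

/-- The expansion at infinity of an element whose function has the level-one `q`-expansion `x`
is `x(Q^w)`. -/
theorem expInf_eq_of_hasQExp (a : ModRing ι O w) {x : LaurentSeries K}
    (hx : HasQExp (toCι ι x) a.1.1) : expInf ι O w a = qExpand K w x := by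
  apply toCι_injective ι ι.injective
  have h1 := a.intgQN 1
  rw [compSL_one] at h1
  have h2 : IntgQN w a.1.1 (qExpand ℂ w (toCι ι x)) := hx.qExpand w
  rw [expInf_apply, intg_qn_unique w h1 h2, toCι, ModularCurve.coeffMap_qExpand]

end Build

/-! ### The hypothesis `hjd` -/

section Level

variable {M : ℕ} [NeZero M]

theorem compSL_jdFun_of_mem_Gamma {d : ℕ} [NeZero d] (hd : d ∣ M) {δ : SL(2, ℤ)}
    (hδ : δ ∈ Gamma M) : compSL (jdFun d) δ = jdFun d :=
  Fermat.Agent.DS.X1.AnalyticGens13.compSL_jdFun_of_mem_Gamma0 M hd (Gamma_le_Gamma0 M hδ)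

/-- **`hjd`**: `z ↦ j(d z)`, `d ∣ M`, lies in `modRing`, with expansion `j(Q^{M d})`. -/
theorem exists_jd {ζ : K} (hζ : ι ζ = zetaC M) (d : ℕ) [NeZero d] (hd : d ∣ M) :
    ∃ a : ModRing ι O M, expInf ι O M a = qExpand K M (qExpand K d (jqModC K)) := by
  obtain ⟨a, ha⟩ := exists_modRing_of_qExpFr (O := O) (ι := ι) (w := M) (f := jdFun d)
    ((hasQExp_jqModC.qExpand d).mdifferentiable)
    (fun δ hδ => compSL_jdFun_of_mem_Gamma hd hδ)
    (fun γ => qExpFr_compSL_jdFun O ι M hζ d hd γ)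
  refine ⟨a, expInf_eq_of_hasQExp a ?_⟩
  rw [ha, toCι, ModularCurve.coeffMap_qExpand, coeffMap_jqModC]
  exact hasQExp_jqModC.qExpand d

variable (ι O M)

/-- **The Igusa input at level `M`**, from a unit `ζ` of `O` with `ι ζ = exp(2πi/M)` alone. -/
def igusaInputOfZeta (ζ : (↥O)ˣ) (hζ : ι ((ζ : ↥O) : K) = zetaC M) : IgusaInput K O M :=
  igusaInput ι O M ζ hζ (fun d _ hd => exists_jd hζ d hd)

variable {ι O M}

theorem igusaInputOfZeta_ι_algebraMap (ζ : (↥O)ˣ) (hζ : ι ((ζ : ↥O) : K) = zetaC M)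
    (a : ModRing ι O M) :
    (igusaInputOfZeta ι O M ζ hζ).ι (algebraMap (ModRing ι O M) (FracMod ι O M) a) =
      expInf ι O M a :=
  ιInf_algebraMap a

end Level

/-! ### Lifting a function field with bounded cusp expansions -/

section Lift

variable (L : LevelData) [IsFractionRing (Rsubc L K) (FFc L K)]
  (D : RealizeDataL L K ι) (C : CuspDataL L K ι D)

/-- The element of `modRing` attached to `u ∈ R = K[generators]`. -/
theorem exists_modRing_of_cuspData
    (hbdd : ∀ (γ : SL(2, ℤ)) (u : Rsubc L K), C.T γ (u : FFc L K) ∈ fracField O)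
    (u : Rsubc L K) :
    ∃ a : ModRing ι O L.w, a.1.1 = D.Θ u ∧
      expInf ι O L.w a = qExpand K L.w ((u : FFc L K) : LaurentSeries K) := by
  have hmem : IsMod ι O L.w (D.Θ u, fun γ => C.T γ (u : FFc L K)) := by
    refine ⟨D.mem_HolH u, fun δ hδ => D.invariant u δ (L.gamma_le hδ), fun γ => ⟨?_, hbdd γ u⟩⟩
    obtain ⟨m, P, hP, hT⟩ := C.spec γ u
    show IntgQN L.w (compSL (D.Θ u) γ) (toCι ι (C.T γ (u : FFc L K)))
    rw [hT, toCι, Fermat.Agent.X0.coeffMap_laurentOf]
    exact intg_qn_of_isQExp L.w hP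
  refine ⟨⟨_, hmem⟩, rfl, ?_⟩
  apply expInf_eq_of_hasQExp
  obtain ⟨m, P, hP, hu⟩ := hasQExp_of_realizeData D u
  rw [hu]
  exact intg_hasQExp_of_isQExp hP

/-- **`hE1L`**: every element of the function field `FFc L K = K · L.F₀` lifts to the level-`L.w`
field of `igusaInputOfZeta`, with `ι (lift) = y(Q^w)`. -/
theorem exists_ι_eq_qExpand (ζ : (↥O)ˣ) (hζ : ι ((ζ : ↥O) : K) = zetaC L.w)
    (hbdd : ∀ (γ : SL(2, ℤ)) (u : Rsubc L K), C.T γ (u : FFc L K) ∈ fracField O)
    (y : LaurentSeries K) (hy : y ∈ laurentBaseChange K L.F₀) :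
    ∃ b : (igusaInputOfZeta ι O L.w ζ hζ).L,
      (igusaInputOfZeta ι O L.w ζ hζ).ι b = qExpand K L.w y := by
  obtain ⟨r, s, hrs⟩ := Fermat.Agent.DS.G.X0.CuspEquiv.exists_div (L := L) (Lc := K) ⟨y, hy⟩
  obtain ⟨a, -, ha⟩ := exists_modRing_of_cuspData L D C hbdd r
  obtain ⟨b, -, hb⟩ := exists_modRing_of_cuspData L D C hbdd s
  refine ⟨algebraMap (ModRing ι O L.w) (FracMod ι O L.w) a /
    algebraMap (ModRing ι O L.w) (FracMod ι O L.w) b, ?_⟩
  have hy' : y = ((r : FFc L K) : LaurentSeries K) / ((s : FFc L K) : LaurentSeries K) := by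
    have := congrArg (fun t : FFc L K => (t : LaurentSeries K)) hrs
    exact this
  show ιInf ι O L.w (algebraMap (ModRing ι O L.w) (FracMod ι O L.w) a /
    algebraMap (ModRing ι O L.w) (FracMod ι O L.w) b) = qExpand K L.w y
  rw [map_div₀, ιInf_algebraMap, ιInf_algebraMap, ha, hb, hy', map_div₀]

end Lift

/-! ### The instance `±Γ₁(M)` -/

section Inst

open Fermat.Agent.DS.X1.Level1 Fermat.Agent.DS.X1.Inst13

variable (M : ℕ) [NeZero M]

/-- **`hE1L` for `K · F₁(M)`**, unconditional. -/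
theorem exists_ι_eq_qExpand_L1 (ζ : (↥O)ˣ) (hζ : ι ((ζ : ↥O) : K) = zetaC M)
    (y : LaurentSeries K) (hy : y ∈ laurentBaseChange K (L1 M).F₀) :
    ∃ b : (igusaInputOfZeta ι O M ζ hζ).L,
      (igusaInputOfZeta ι O M ζ hζ).ι b = qExpand K M y :=
  exists_ι_eq_qExpand (L1 M) (realizeData1 M K ι ι.injective ((ζ : ↥O) : K) hζ)
    (cuspData1 M K ι ι.injective ((ζ : ↥O) : K) hζ) ζ hζ
    (fun γ u => cuspData1_T_mem_fracField M O ι ι.injective ((ζ : ↥O) : K) hζ γ (u : FFc (L1 M) K))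
    y hy

end Inst

end Fermat.Agent.DS.G.RED.Igusa.ModRing11
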